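import Mathlib
import Fermat.Prelude.Def_GaloisRep_Flat

/-!
# Project S19 (finite flat models of `J₀(N)[ℓ^k]`): basic definitions of block A (pure algebra)

* `IsFlatMod ℓ G`  : the conclusion of S19 / S32 for an abstract `G_ℚ`-module `G`.
* `IsFunOrder ℓ G H`, `IsFunFlat ℓ G` : a "Hopf order of functions" `H ⊆ Fun(G, ℚ̄)`; this is the form in
  which everything is proved (sub-objects, quotients, the pairing criterion).
* `IsSep β A u` : the function `u : Γ → K` has "separated variables": `u τ = ∑ a_i τ(b_i)` with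
  `a_i ∈ A` and all conjugates of `b_i` in `A`.
-/

set_option autoImplicit false

namespace Fermat.Agent.S19

/-- `ℚ̄`. -/
abbrev Qb : Type := AlgebraicClosure ℚ

/-- `G_ℚ`. -/
abbrev GQ : Type := Qb ≃ₐ[ℚ] Qb

/-- `ℤ_(ℓ)` as a subring of `ℚ`. -/
abbrev Rl (ℓ : ℕ) : Subring ℚ := GaloisRep.ratLocalizedAt ℓ

/-- `G` is, Galois equivariantly, the group of `ℚ̄`-points of a finite flat commutative group scheme
over `ℤ_(ℓ)` (literally the conclusion of S19 and of `GaloisRepAdic.IsFlatAt`). -/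
def IsFlatMod (ℓ : ℕ) (G : Type) [AddCommGroup G] [DistribMulAction GQ G] : Prop :=
  ∃ (H : Type) (_ : CommRing H) (_ : HopfAlgebra (Rl ℓ) H),
    Module.Finite (Rl ℓ) H ∧ Module.Flat (Rl ℓ) H ∧ Coalgebra.IsCocomm (Rl ℓ) H ∧
    ∃ e : WithConv (H →ₐ[Rl ℓ] Qb) ≃ G,
      (∀ f g, e (f * g) = e f + e g) ∧
      ∀ (σ : GQ) (f g : WithConv (H →ₐ[Rl ℓ] Qb)), (∀ h : H, g h = σ (f h)) → e g = σ • e f

/-- `H ⊆ Fun(G, ℚ̄)` is a Hopf order of functions on the `G_ℚ`-module `G`. -/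
structure IsFunOrder (ℓ : ℕ) (G : Type) [AddCommGroup G] [DistribMulAction GQ G]
    (H : Subalgebra (Rl ℓ) (G → Qb)) : Prop where
  equivariant : ∀ h ∈ H, ∀ (σ : GQ) (x : G), h (σ • x) = σ (h x)
  fg : (Subalgebra.toSubmodule H).FG
  separates : ∀ x y : G, (∀ h ∈ H, h x = h y) → x = y
  counit : ∀ h ∈ H, ∃ r : Rl ℓ, h 0 = algebraMap (Rl ℓ) Qb r
  comul : ∀ h ∈ H, ∃ (n : ℕ) (a c : Fin n → G → Qb), (∀ i, a i ∈ H) ∧ (∀ i, c i ∈ H) ∧
    ∀ x y : G, h (x + y) = ∑ i, a i x * c i y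

/-- `G` has a Hopf order of functions. -/
def IsFunFlat (ℓ : ℕ) (G : Type) [AddCommGroup G] [DistribMulAction GQ G] : Prop :=
  ∃ H : Subalgebra (Rl ℓ) (G → Qb), IsFunOrder ℓ G H

/-- "Separated variables": `u τ = ∑ a_i τ(b_i)`, `a_i ∈ A`, all conjugates of the `b_i` in `A`. -/
def IsSep {K Γ : Type*} [Field K] [Group Γ] (β : Γ →* RingAut K) (A : ValuationSubring K)
    (u : Γ → K) : Prop :=
  ∃ (n : ℕ) (a b : Fin n → K), (∀ i, a i ∈ A) ∧ (∀ i τ, β τ (b i) ∈ A) ∧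
    ∀ τ, u τ = ∑ i, a i * β τ (b i)

end Fermat.Agent.S19
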